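/-
P-S48, G1 [XI] adapter (helper16): the `m`-torsion `G1.Export.tors J m` of the abstract export
contract (`{x | m • x = 0}`, natural number scalar) versus the Prelude's `Pic0.torsion K F m`
(`Submodule.torsionBy ℤ _ (m : ℤ)`), for `J = Pic0 K F`.

* `torsPicEquiv K F m : tors (Pic0 K F) m ≃+ Pic0.torsion K F m`, the identity on underlying points;
* `coe_torsPicEquiv`, `coe_torsPicEquiv_symm`;
* `torsPicEquiv_map` : compatibility with an additive endomorphism `τ` of `Pic0 K F`
  (restricted to torsion on both sides).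
-/
import Mathlib
import Fermat.Agent.S48x.G1.ExportAbstract
import Fermat.Prelude.Def_AlgebraicCurve_DivisorClassGroup

set_option autoImplicit false

namespace Fermat.Agent.S48x.G1.Adapt

open AlgebraicCurve Fermat.Agent.S48x.G1.Export

variable (K F : Type) [Field K] [Field F] [Algebra K F]

theorem mem_tors_iff_mem_torsion {m : ℕ} {x : Pic0 K F} :
    x ∈ tors (Pic0 K F) m ↔ x ∈ Pic0.torsion K F m := by
  rw [mem_tors, Pic0.mem_torsion, natCast_zsmul]

/-- `tors (Pic0 K F) m ≃+ Pic0.torsion K F m`, the identity on points. -/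
def torsPicEquiv (m : ℕ) : tors (Pic0 K F) m ≃+ Pic0.torsion K F m where
  toFun x := ⟨x.1, (mem_tors_iff_mem_torsion K F).mp x.2⟩
  invFun y := ⟨y.1, (mem_tors_iff_mem_torsion K F).mpr y.2⟩
  left_inv _ := rfl
  right_inv _ := rfl
  map_add' _ _ := rfl

@[simp] theorem coe_torsPicEquiv (m : ℕ) (x : tors (Pic0 K F) m) :
    ((torsPicEquiv K F m x : Pic0.torsion K F m) : Pic0 K F) = (x : Pic0 K F) := rfl

@[simp] theorem coe_torsPicEquiv_symm (m : ℕ) (y : Pic0.torsion K F m) :
    (((torsPicEquiv K F m).symm y : tors (Pic0 K F) m) : Pic0 K F) = (y : Pic0 K F) := rfl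

/-- If `y ∈ Pic0.torsion` has the same underlying point as `τ x`, then it is the image of the
restriction of `τ` to `tors`. -/
theorem torsPicEquiv_map {m : ℕ} (τ : Pic0 K F →+ Pic0 K F) (x : tors (Pic0 K F) m)
    (y : Pic0.torsion K F m) (hy : (y : Pic0 K F) = τ (x : Pic0 K F)) :
    torsPicEquiv K F m ⟨τ x, map_mem_tors τ x.2⟩ = y :=
  Subtype.ext hy.symm

end Fermat.Agent.S48x.G1.Adapt
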